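/-
S29 / layer M / M4b — piece `DC` (DICT-converse, the EASY direction of the places dictionary),
part 1: the Taylor embedding `sigmaTau τ : FF N →+* ℂ((t))` at an arbitrary point `τ ∈ ℍ`.
(helper441)

For `r` in `RN N = ℚ̄[j(q^d) : d ∣ N]` there is a unique good function `goodOf N r` whose
`q`-expansion is `r` (coefficients embedded by `iotaC`); `r ↦ goodOf N r` is an injective ring
homomorphism into the ring of holomorphic functions.  Composing with the Taylor expansion at `τ`
and extending to the fraction field gives `sigmaTau N τ`.  Main result: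

* `sigmaTau_eq_of_realises` : if `G` realises `u ∈ FF N` (M4b/Defs), then
  `sigmaTau N τ u` is the Taylor expansion of `G` at `τ`.
-/
import Fermat.Agent.S29.M4b.Defs
import Fermat.Agent.S24.Mod.H997Frac
import Fermat.Agent.S24.H624.Laurent

set_option autoImplicit false
set_option linter.unusedSectionVars false

noncomputable section

open ModularCurve AlgebraicCurve CongruenceSubgroup UpperHalfPlane
open scoped MatrixGroups Manifold

namespace Fermat.Agent.S29.H441

open Fermat.Agent.S24 Fermat.Agent.S29 Fermat.Agent.S29.M4b Fermat.Agent.S24.H997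
  Fermat.Agent.S24.H624 Fermat.Agent.S24.H648 Fermat.Agent.S24.H708 Fermat.Agent.S24.Deg457
  Fermat.Agent.S29.H882

variable (N : ℕ) [NeZero N]

/-- `coeffMap iotaC` is injective. -/
theorem dc_coeffMap_iotaC_injective :
    Function.Injective (coeffMap iotaC : LaurentSeries Kbar → LaurentSeries ℂ) :=
  Fermat.Agent.S24.inf_coeffMap_injective iotaC.injective

/-- Every element of `RN N` is the `q`-expansion of a good function. -/
theorem dc_exists_good (r : RN N) :
    ∃ G : ℍ → ℂ, G ∈ goodRing N ∧ HasQExp 1 G (coeffMap iotaC (r : LaurentSeries Kbar)) := by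
  have h1 : (r : LaurentSeries Kbar) ∈ AK Kbar N := r.2
  exact AK_le_goodQ N (coeffMap_mem_AK iotaC h1)

/-- The good function with `q`-expansion `r`. -/
def goodOf (r : RN N) : ℍ → ℂ := (dc_exists_good N r).choose

theorem goodOf_mem (r : RN N) : goodOf N r ∈ goodRing N := (dc_exists_good N r).choose_spec.1

theorem goodOf_hasQExp (r : RN N) :
    HasQExp 1 (goodOf N r) (coeffMap iotaC (r : LaurentSeries Kbar)) :=
  (dc_exists_good N r).choose_spec.2

theorem goodOf_mdiff (r : RN N) : MDifferentiable 𝓘(ℂ) 𝓘(ℂ) (goodOf N r) := (goodOf_mem N r).1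

/-- Characterisation of `goodOf` by the `q`-expansion. -/
theorem goodOf_eq_of_hasQExp {r : RN N} {G : ℍ → ℂ}
    (hG : HasQExp 1 G (coeffMap iotaC (r : LaurentSeries Kbar))) : goodOf N r = G :=
  (goodOf_hasQExp N r).eq_of_eq hG

theorem goodOf_add (r s : RN N) : goodOf N (r + s) = goodOf N r + goodOf N s := by
  apply goodOf_eq_of_hasQExp
  have h := (goodOf_hasQExp N r).add (goodOf_hasQExp N s)
  rwa [← map_add] at h

theorem goodOf_mul (r s : RN N) : goodOf N (r * s) = goodOf N r * goodOf N s := by
  apply goodOf_eq_of_hasQExp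
  have h := (goodOf_hasQExp N r).mul (goodOf_hasQExp N s)
  rwa [← map_mul] at h

theorem goodOf_one : goodOf N (1 : RN N) = 1 := by
  apply goodOf_eq_of_hasQExp
  have h := HasQExp.one 1
  simpa using h

theorem goodOf_zero : goodOf N (0 : RN N) = 0 := by
  apply goodOf_eq_of_hasQExp
  have h := HasQExp.zero 1
  simpa using h

theorem goodOf_eq_zero_iff (r : RN N) : goodOf N r = 0 ↔ r = 0 := by
  constructor
  · intro h
    have h1 := (goodOf_hasQExp N r).eq_zero_iff.mpr h
    have h2 : (r : LaurentSeries Kbar) = 0 :=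
      dc_coeffMap_iotaC_injective (by rw [h1, map_zero])
    exact Subtype.ext h2
  · rintro rfl
    exact goodOf_zero N

/-- `r ↦ goodOf N r` as a ring homomorphism into the ring of holomorphic functions. -/
def goodHom : RN N →+* holoRing where
  toFun r := ⟨goodOf N r, goodOf_mdiff N r⟩
  map_one' := Subtype.ext (goodOf_one N)
  map_mul' r s := Subtype.ext (goodOf_mul N r s)
  map_zero' := Subtype.ext (goodOf_zero N)
  map_add' r s := Subtype.ext (goodOf_add N r s)

@[simp] theorem coe_goodHom (r : RN N) : ((goodHom N r : holoRing) : ℍ → ℂ) = goodOf N r := rfl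

theorem goodHom_injective : Function.Injective (goodHom N) := by
  rw [injective_iff_map_eq_zero]
  intro r hr
  have : goodOf N r = 0 := congrArg (fun f : holoRing => (f : ℍ → ℂ)) hr
  exact (goodOf_eq_zero_iff N r).mp this

/-- Taylor expansion at `τ` on `RN N`. -/
def sTau (τ : ℍ) : RN N →+* LaurentSeries ℂ := (taylorLaurent τ).comp (goodHom N)

theorem sTau_injective (τ : ℍ) : Function.Injective (sTau N τ) :=
  (taylorLaurent_injective τ).comp (goodHom_injective N)

/-- **The Taylor embedding at `τ`** of the function field of `X₀(N)` over `ℚ̄`. -/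
def sigmaTau (τ : ℍ) : FF N →+* LaurentSeries ℂ := liftF (sTau N τ) (sTau_injective N τ)

theorem sigmaTau_inclRN (τ : ℍ) (r : RN N) :
    sigmaTau N τ (inclRN N r) = taylorLaurent τ (goodHom N r) :=
  liftF_inclRN _ _ r

/-- A good function as an element of the ring of holomorphic functions. -/
def holoOf {G : ℍ → ℂ} (hG : G ∈ goodRing N) : holoRing := ⟨G, hG.1⟩

@[simp] theorem coe_holoOf {G : ℍ → ℂ} (hG : G ∈ goodRing N) :
    ((holoOf N hG : holoRing) : ℍ → ℂ) = G := rfl

/-- **Main bridge** (unbundled form). -/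
theorem sigmaTau_eq_of_qexp (τ : ℍ) (u : FF N) {G : ℍ → ℂ} (hG1 : G ∈ goodRing N)
    (hG2 : qexpFun 1 G = coeffMap iotaC ((u : FF N) : LaurentSeries Kbar)) :
    sigmaTau N τ u = taylorLaurent τ (holoOf N hG1) := by
  obtain ⟨r, t, ht, hu⟩ := exists_div_inclRN N u
  have htF : inclRN N t ≠ 0 := fun h => ht (inclRN_injective N (by rw [h, map_zero]))
  have hmul : u * inclRN N t = inclRN N r := by
    rw [hu, div_mul_cancel₀ _ htF]
  have hmulL : ((u : FF N) : LaurentSeries Kbar) * (t : LaurentSeries Kbar)
      = (r : LaurentSeries Kbar) := by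
    have := congrArg (fun x : FF N => (x : LaurentSeries Kbar)) hmul
    simpa using this
  have hGq : HasQExp 1 G (coeffMap iotaC ((u : FF N) : LaurentSeries Kbar)) :=
    ⟨isMerInf_of_mem_goodRing hG1, hG2⟩
  have hprod : HasQExp 1 (G * goodOf N t) (coeffMap iotaC (r : LaurentSeries Kbar)) := by
    have h := hGq.mul (goodOf_hasQExp N t)
    rwa [← map_mul, hmulL] at h
  have hfun : goodOf N r = G * goodOf N t := goodOf_eq_of_hasQExp N hprod
  have hholo : goodHom N r = holoOf N hG1 * goodHom N t := Subtype.ext hfun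
  have hst : sTau N τ t ≠ 0 := fun h => ht (sTau_injective N τ (by rw [h, map_zero]))
  have h1 : sigmaTau N τ u = sTau N τ r / sTau N τ t := by
    have := congrArg (sigmaTau N τ) hu
    rw [this]
    exact liftF_div _ _ r t
  rw [h1]
  show taylorLaurent τ (goodHom N r) / taylorLaurent τ (goodHom N t) = _
  rw [hholo, map_mul]
  exact mul_div_cancel_right₀ _ hst

/-- **Main bridge**: if `G` realises `u ∈ FF N`, then the Taylor embedding of `u` at `τ` is the
Taylor expansion of `G` at `τ`. -/
theorem sigmaTau_eq_of_realises (τ : ℍ) {u : FF N} {G : ℍ → ℂ} (hG : Realises N u G) :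
    sigmaTau N τ u = taylorLaurent τ (holoOf N hG.1) :=
  sigmaTau_eq_of_qexp N τ u hG.1 hG.2

/-- A power series viewed as a Laurent series has non-negative order. -/
theorem dc_order_ofPowerSeries_nonneg (φ : PowerSeries ℂ) :
    0 ≤ (HahnSeries.ofPowerSeries ℤ ℂ φ).order := by
  by_cases h0 : φ = 0
  · subst h0
    simp
  · obtain ⟨n, hn⟩ := ENat.ne_top_iff_exists.mp (PowerSeries.order_eq_top.not.mpr h0)
    rw [order_ofPowerSeries hn.symm]
    exact Int.natCast_nonneg n

/-- The Taylor embedding takes values of non-negative order on `RN N`. -/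
theorem sigmaTau_inclRN_order (τ : ℍ) (r : RN N) :
    0 ≤ (sigmaTau N τ (inclRN N r)).order := by
  rw [sigmaTau_inclRN, taylorLaurent_apply]
  exact dc_order_ofPowerSeries_nonneg _

/-- Constants are mapped to series of non-negative order. -/
theorem sigmaTau_algebraMap_order (τ : ℍ) (c : Kbar) :
    0 ≤ (sigmaTau N τ (algebraMap Kbar (FF N) c)).order := by
  have h : algebraMap Kbar (FF N) c = inclRN N (algebraMap Kbar (RN N) c) :=
    ((inclRN N).commutes c).symm
  rw [h]
  exact sigmaTau_inclRN_order N τ _

/-- The order of the Taylor embedding of a realised element is the analytic order of the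
realising function. -/
theorem sigmaTau_order_of_realises (τ : ℍ) {u : FF N} {G : ℍ → ℂ} (hG : Realises N u G)
    (hG0 : G ≠ 0) :
    (sigmaTau N τ u).order = ((ordAt τ G).toNat : ℤ) := by
  rw [sigmaTau_eq_of_realises N τ hG, taylorLaurent_apply]
  refine order_ofPowerSeries ?_
  rw [order_taylorAt, coe_holoOf, ENat.natCast_toNat (ordAt_ne_top hG.1.1 hG0 τ)]

end Fermat.Agent.S29.H441
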