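/-
S29 / layer M / M4b — piece `DC` (DICT-converse, the EASY direction of the places dictionary),
part 2: the statements.  (helper441)

* `dc_dvd_order_of_forall_dvd` (generic): if `m ∣ ord_v f` at every place `v` of `F/K`, then `m`
  divides the order of `σ f` for EVERY embedding `σ : F →+* C((t))` which is `≥ 0` on constants
  (either `σ` cuts out a place, and its order function is a multiple of `ord_v`; or all orders
  vanish).
* `exists_realises_mul_pow` (pole clearing): for `u ∈ FF N` and `m ≥ 1` there are `t ≠ 0` and a good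
  function `G` realising `u * t ^ m`.
* `dvd_ordAt_of_realises` / `exists_analyticOrderAt_eq_mul` (**DC**): if `u ≠ 0`,
  `m ∣ ord_v u` at all places `v` of `FF N / ℚ̄` and `G` realises `u`, then all orders of vanishing
  of `G` on `ℍ` are divisible by `m` — in the exact shape of the hypothesis of the landed root
  lemma `H751.exists_pow_eq_UHP`.
* `exists_root_of_realises`: hence `G = U ^ m` with `U` holomorphic on `ℍ`.
* `exists_realised_root`: for every `u ≠ 0` with `m ∣ div u` there are `t ≠ 0` and a holomorphic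
  `U ≢ 0` with `U ^ m` good and realising `u * t ^ m`.
-/
import Fermat.Agent.S29.H441.DCEmb
import Fermat.Agent.S24.Alg.LocPlace
import Fermat.Agent.S29.H751.PthRootUHP

set_option autoImplicit false
set_option linter.unusedSectionVars false

noncomputable section

open ModularCurve AlgebraicCurve CongruenceSubgroup UpperHalfPlane
open scoped MatrixGroups Manifold

namespace Fermat.Agent.S29.H441

open Fermat.Agent.S24 Fermat.Agent.S29 Fermat.Agent.S29.M4b Fermat.Agent.S24.H997
  Fermat.Agent.S24.H624 Fermat.Agent.S24.H648 Fermat.Agent.S24.H708 Fermat.Agent.S24.Deg457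
  Fermat.Agent.S29.H882 Fermat.Agent.S24.H144

section Generic

variable {K F : Type*} [Field K] [Field F] [Algebra K F] {C : Type*} [Field C]

/-- **Generic DC.**  If `m` divides `ord_v f` at every place `v` of `F/K`, then `m` divides the
order of `σ f` for every embedding `σ` of `F` into a Laurent series field which has non-negative
order on the constants. -/
theorem dc_dvd_order_of_forall_dvd (σ : F →+* LaurentSeries C)
    (hK : ∀ c : K, 0 ≤ (σ (algebraMap K F c)).order) {m : ℤ} {f : F}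
    (hdiv : ∀ v : Place K F, m ∣ v.ord f) : m ∣ (σ f).order := by
  by_cases hneg : ∃ g : F, (σ g).order < 0
  · obtain ⟨e, -, he⟩ := loc_exists_mult (placeOfEmb σ hK hneg) σ (induces_placeOfEmb σ hK hneg)
    rw [he f]
    exact Dvd.dvd.mul_left (hdiv _) _
  · push Not at hneg
    have h1 := hneg f
    have h2 := hneg f⁻¹
    rw [loc_order_map_inv] at h2
    have : (σ f).order = 0 := by omega
    rw [this]
    exact dvd_zero m

end Generic

variable (N : ℕ) [NeZero N]

/-- Elements of `RN N` are realised by good functions. -/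
theorem realises_inclRN (r : RN N) : Realises N (inclRN N r) (goodOf N r) :=
  ⟨goodOf_mem N r, (goodOf_hasQExp N r).qexpFun_eq⟩

/-- **Pole clearing.**  For `u ∈ FF N` and `m ≥ 1` there is `t ≠ 0` such that `u * t ^ m` is realised
by a good (in particular holomorphic) function. -/
theorem exists_realises_mul_pow (u : FF N) {m : ℕ} (hm : m ≠ 0) :
    ∃ (t : FF N) (G : ℍ → ℂ), t ≠ 0 ∧ Realises N (u * t ^ m) G := by
  obtain ⟨r, t, ht, hu⟩ := exists_div_inclRN N u
  have htF : inclRN N t ≠ 0 := fun h => ht (inclRN_injective N (by rw [h, map_zero]))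
  obtain ⟨k, rfl⟩ := Nat.exists_eq_succ_of_ne_zero hm
  refine ⟨inclRN N t, goodOf N (r * t ^ k), htF, ?_⟩
  have h : u * inclRN N t ^ (k + 1) = inclRN N (r * t ^ k) := by
    rw [hu, map_mul, map_pow, pow_succ]
    field_simp
  rw [h]
  exact realises_inclRN N _

/-- A function realising a nonzero element is not identically zero. -/
theorem ne_zero_of_realises {u : FF N} (hu : u ≠ 0) {G : ℍ → ℂ} (hG : Realises N u G) :
    G ≠ 0 := by
  intro h0
  have hGq : HasQExp 1 G (coeffMap iotaC ((u : FF N) : LaurentSeries Kbar)) :=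
    ⟨isMerInf_of_mem_goodRing hG.1, hG.2⟩
  have h1 := hGq.eq_zero_iff.mpr h0
  have h2 : ((u : FF N) : LaurentSeries Kbar) = 0 :=
    dc_coeffMap_iotaC_injective (by rw [h1, map_zero])
  exact hu (Subtype.ext h2)

/-- **DC, order form.**  If `m ∣ ord_v u` at every place of `FF N / ℚ̄` and `G` realises `u ≠ 0`,
then `m` divides the order of vanishing of `G` at every point of `ℍ`. -/
theorem dvd_ordAt_of_realises {m : ℕ} {u : FF N} (hu : u ≠ 0)
    (hdiv : ∀ v : Place Kbar (FF N), (m : ℤ) ∣ v.ord u) {G : ℍ → ℂ} (hG : Realises N u G)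
    (τ : ℍ) : m ∣ (ordAt τ G).toNat := by
  have h := dc_dvd_order_of_forall_dvd (K := Kbar) (sigmaTau N τ)
    (sigmaTau_algebraMap_order N τ) hdiv
  rw [sigmaTau_order_of_realises N τ hG (ne_zero_of_realises N hu hG)] at h
  exact Int.natCast_dvd_natCast.mp h

/-- **DC**, in the exact shape of the hypothesis of `H751.exists_pow_eq_UHP`. -/
theorem exists_analyticOrderAt_eq_mul {m : ℕ} {u : FF N} (hu : u ≠ 0)
    (hdiv : ∀ v : Place Kbar (FF N), (m : ℤ) ∣ v.ord u) {G : ℍ → ℂ} (hG : Realises N u G)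
    (τ : ℍ) : ∃ k : ℕ, analyticOrderAt (G ∘ ofComplex) (τ : ℂ) = ((m * k : ℕ) : ℕ∞) := by
  obtain ⟨k, hk⟩ := dvd_ordAt_of_realises N hu hdiv hG τ
  refine ⟨k, ?_⟩
  have hne : ordAt τ G ≠ ⊤ := ordAt_ne_top hG.1.1 (ne_zero_of_realises N hu hG) τ
  rw [← ordAt_def, ← hk, ENat.natCast_toNat hne]

/-- **Root.**  If `m ≥ 1`, `m ∣ ord_v u` at every place and `G` realises `u ≠ 0`, then `G` is the
`m`-th power of a holomorphic function on `ℍ`. -/
theorem exists_root_of_realises {m : ℕ} (hm : m ≠ 0) {u : FF N} (hu : u ≠ 0)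
    (hdiv : ∀ v : Place Kbar (FF N), (m : ℤ) ∣ v.ord u) {G : ℍ → ℂ} (hG : Realises N u G) :
    ∃ U : ℍ → ℂ, MDifferentiable 𝓘(ℂ) 𝓘(ℂ) U ∧ (∀ τ : ℍ, U τ ^ m = G τ) ∧ ∃ τ : ℍ, U τ ≠ 0 := by
  obtain ⟨U, hU, hUG⟩ := H751.exists_pow_eq_UHP hG.1.1 m hm
    (exists_analyticOrderAt_eq_mul N hu hdiv hG)
  refine ⟨U, hU, hUG, ?_⟩
  by_contra hall
  push Not at hall
  apply ne_zero_of_realises N hu hG
  funext τ
  rw [← hUG τ, hall τ, zero_pow hm]
  rfl

/-- **DC + pole clearing + root**: for every `u ≠ 0` in `FF N` all of whose orders are divisible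
by `m ≥ 1`, there are `t ≠ 0` in `FF N` and a holomorphic `U ≢ 0` on `ℍ` such that `U ^ m` is good
and realises `u * t ^ m`. -/
theorem exists_realised_root {m : ℕ} (hm : m ≠ 0) {u : FF N} (hu : u ≠ 0)
    (hdiv : ∀ v : Place Kbar (FF N), (m : ℤ) ∣ v.ord u) :
    ∃ (t : FF N) (U : ℍ → ℂ), t ≠ 0 ∧ MDifferentiable 𝓘(ℂ) 𝓘(ℂ) U ∧ (∃ τ : ℍ, U τ ≠ 0) ∧
      Realises N (u * t ^ m) (fun τ => U τ ^ m) := by
  obtain ⟨t, G, ht, hG⟩ := exists_realises_mul_pow N u hm
  have hut : u * t ^ m ≠ 0 := mul_ne_zero hu (pow_ne_zero m ht)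
  have hdiv' : ∀ v : Place Kbar (FF N), (m : ℤ) ∣ v.ord (u * t ^ m) := by
    intro v
    have hpow : v.ord (t ^ m) = (m : ℤ) * v.ord t := by
      have := v.ord_zpow t (m : ℤ)
      rwa [zpow_natCast] at this
    rw [v.ord_mul hu (pow_ne_zero m ht), hpow]
    exact dvd_add (hdiv v) (Dvd.intro _ rfl)
  obtain ⟨U, hU, hUG, hU0⟩ := exists_root_of_realises N hm hut hdiv' hG
  refine ⟨t, U, ht, hU, hU0, ?_⟩
  have : (fun τ => U τ ^ m) = G := funext hUG
  rw [this]
  exact hG

end Fermat.Agent.S29.H441
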