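/-
S29 row, M4b, piece K3, sub-piece K3-FIN — ASSEMBLY (helper441).

`finStatement_of : FinF1Statement N p → FinDFStatement N p → M4b.K3.FinStatement N p`,
i.e. the single remaining sub-piece `K3-FIN` of helper42's K3 skeleton from

* `FinF1Statement N p` (**F1**, DICT-hard over `ℂ`): for a twisted function `U` of a parabolic
  character, `p ∣ ord_w (qexp (U ^ p))` at EVERY place `w` of `F_ℂ = ℂ(X₀(N))`;
* `FinDFStatement N p` (**DF**, DICT-easy + pole clearing over `ℂ`): if `f ∈ F_ℂˣ` and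
  `p ∣ ord_w f` at every place `w`, then `f · s ^ p` is the `q`-expansion of a good function all of
  whose orders of vanishing on `ℍ` are divisible by `p` (for some `s ∈ F_ℂˣ`).

Proved here:
* **F2** (transport): `Aut(ℂ/ℚ̄)` acts on `F_ℂ` coefficientwise (Prelude `arithmeticGalois`) and
  permutes the places (Prelude `SemilinearAut.ord_smul`), so `p ∣ ord_w (σ f)` for all `w`;
* **F8** (assembly): ROOT + character (landed `S30.Fin.exists_isTwisted_of_pow`), finitely many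
  characters (landed `S30.H109.finite_hom_set`), same character ⟹ same class (landed
  `H942.exists_pow_mul_eq_of_realised`).
-/
import Fermat.Agent.S29.M4b.K3.Defs
import Fermat.Agent.S29.H942.SameChar
import Fermat.Agent.S30.Fin.Root
import Fermat.Agent.S30.Fin.Count
import Fermat.Agent.S30.H109.Onto
import Fermat.Prelude.Def_ModularCurve_ArithmeticGalois

set_option autoImplicit false

noncomputable section

open ModularCurve AlgebraicCurve CongruenceSubgroup UpperHalfPlane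
open scoped MatrixGroups Manifold

namespace Fermat.Agent.S29.H441

open Fermat.Agent.S24 Fermat.Agent.S24.H648 Fermat.Agent.S24.H708 Fermat.Agent.S24.Deg457
open Fermat.Agent.S29 Fermat.Agent.S29.M4b

/-- **F1** (DICT-hard over `ℂ`): the `q`-expansion of the `p`-th power of a twisted function of a
parabolic character has all its orders (at the places of `F_ℂ / ℂ`) divisible by `p`. -/
def FinF1Statement (N p : ℕ) [NeZero N] : Prop :=
  ∀ (c : G0 N → ZMod p), IsParHom c → ∀ (U : ℍ → ℂ) (hU : IsTwisted N p c U)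
    (w : Place ℂ (H882.FC N)),
    (p : ℤ) ∣ w.ord
      (⟨qexpFun 1 (fun τ => U τ ^ p), H882.qexpFun_mem_FC hU.pow_mem⟩ : H882.FC N)

/-- **DF** (DICT-easy + pole clearing over `ℂ`): an element of `F_ℂˣ` all of whose orders are
divisible by `p` is, up to a `p`-th power of `F_ℂˣ`, the `q`-expansion of a good function all of
whose orders of vanishing on `ℍ` are divisible by `p`. -/
def FinDFStatement (N p : ℕ) [NeZero N] : Prop :=
  ∀ f : H882.FC N, f ≠ 0 → (∀ w : Place ℂ (H882.FC N), (p : ℤ) ∣ w.ord f) →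
    ∃ (s : H882.FC N) (G : ℍ → ℂ), s ≠ 0 ∧ G ∈ goodRing N ∧
      qexpFun 1 G = (f : LaurentSeries ℂ) * (s : LaurentSeries ℂ) ^ p ∧
      ∀ τ : ℍ, ∃ k : ℕ, analyticOrderAt (G ∘ ofComplex) (τ : ℂ) = ((p * k : ℕ) : ℕ∞)

/-! ### F2: transport of the divisibility along semilinear automorphisms -/

/-- A semilinear automorphism permutes the places, hence preserves "all orders divisible by `m`". -/
theorem fin_dvd_ord_smul {K F : Type*} [Field K] [Field F] [Algebra K F]
    (g : SemilinearAut K F) (f : F) (m : ℤ) (h : ∀ w : Place K F, m ∣ w.ord f)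
    (w : Place K F) : m ∣ w.ord (g • f) := by
  have h1 := SemilinearAut.ord_smul g (g⁻¹ • w) f
  rw [smul_inv_smul] at h1
  rw [h1]
  exact h _

/-- A ring automorphism of `ℂ` as a `ℚ`-algebra automorphism. -/
def finQAut (σ : ℂ ≃+* ℂ) : ℂ ≃ₐ[ℚ] ℂ :=
  AlgEquiv.ofRingEquiv (f := σ) (fun q => map_ratCast σ q)

theorem finQAut_coe (σ : ℂ ≃+* ℂ) : ((finQAut σ : ℂ ≃ₐ[ℚ] ℂ) : ℂ →+* ℂ) = (σ : ℂ →+* ℂ) :=
  rfl

/-- **F2.**  If all orders of `f ∈ F_ℂ` are divisible by `m`, so are those of `σ f`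
(`σ` any ring automorphism of `ℂ`, acting on the coefficients). -/
theorem fin_transport (N : ℕ) (σ : ℂ ≃+* ℂ) (f : H882.FC N) (m : ℤ)
    (h : ∀ w : Place ℂ (H882.FC N), m ∣ w.ord f) (w : Place ℂ (H882.FC N)) :
    m ∣ w.ord (⟨coeffMap (σ : ℂ →+* ℂ) (f : LaurentSeries ℂ),
      coeffMap_mem_laurentBaseChange (finQAut σ) f.2⟩ : H882.FC N) :=
  fin_dvd_ord_smul (arithmeticGalois (modularFunctionFieldFull N) (finQAut σ)) f m h w

/-! ### F8: the assembly -/

variable {N : ℕ} [NeZero N] {p : ℕ} [NeZero p]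

/-- For every coefficient automorphism `σ`, the conjugate `σ f` of `f = qexp (U ^ p)` is, up to a
`p`-th power, the `q`-expansion of the `p`-th power of a twisted function. -/
theorem fin_exists_isTwisted_conj (h1 : FinF1Statement N p) (h2 : FinDFStatement N p)
    {c : G0 N → ZMod p} (hc : IsParHom c) {U : ℍ → ℂ} (hU : IsTwisted N p c U) (σ : ℂ ≃+* ℂ) :
    ∃ (c' : G0 N → ZMod p) (V : ℍ → ℂ) (s : LaurentSeries ℂ), s ∈ H882.FC N ∧ s ≠ 0 ∧
      IsTwisted N p c' V ∧
      qexpFun 1 (fun τ => V τ ^ p)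
        = coeffMap (σ : ℂ →+* ℂ) (qexpFun 1 (fun τ => U τ ^ p)) * s ^ p := by
  set f : H882.FC N := ⟨qexpFun 1 (fun τ => U τ ^ p), H882.qexpFun_mem_FC hU.pow_mem⟩ with hf
  have hf0 : (f : LaurentSeries ℂ) ≠ 0 := H942.qexpFun_pow_ne_zero_of_isTwisted N p hU
  set f' : H882.FC N := ⟨coeffMap (σ : ℂ →+* ℂ) (f : LaurentSeries ℂ),
      coeffMap_mem_laurentBaseChange (finQAut σ) f.2⟩ with hf'
  have hf'0 : f' ≠ 0 := by
    intro h0
    have h3 : coeffMap (σ : ℂ →+* ℂ) (f : LaurentSeries ℂ) = 0 := congrArg Subtype.val h0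
    apply hf0
    ext k
    have h4 := congrArg (fun z : LaurentSeries ℂ => z.coeff k) h3
    simp only [coeffMap_coeff, HahnSeries.coeff_zero] at h4
    rw [HahnSeries.coeff_zero]
    exact σ.injective (by rw [map_zero]; exact h4)
  obtain ⟨s, G, hs0, hG, hq, hord⟩ := h2 f' hf'0 (fin_transport N σ f p (h1 c hc U hU))
  have hs0' : (s : LaurentSeries ℂ) ≠ 0 := fun h0 => hs0 (Subtype.ext h0)
  have hGm := H882.isMerInf_of_mem_goodRing hG
  have hG0 : ∃ τ : ℍ, G τ ≠ 0 := by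
    by_contra hall
    push Not at hall
    have hGz : G = 0 := funext hall
    have hqz : qexpFun 1 G = 0 := (H708.qexpFun_eq_zero_iff hGm).mpr hGz
    rw [hq] at hqz
    rcases mul_eq_zero.mp hqz with h0 | h0
    · exact hf'0 (Subtype.ext h0)
    · exact hs0' (pow_eq_zero_iff (NeZero.ne p) |>.mp h0)
  obtain ⟨V, c', hV, hVG⟩ := S30.Fin.exists_isTwisted_of_pow N p hG hG0 hord
  refine ⟨c', V, s, s.2, hs0', hV, ?_⟩
  have : (fun τ => V τ ^ p) = G := funext hVG
  rw [this, hq]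

/-- **K3-FIN** from F1 and DF. -/
theorem finStatement_of (N p : ℕ) [NeZero N] [NeZero p] (h1 : FinF1Statement N p)
    (h2 : FinDFStatement N p) : K3.FinStatement N p := by
  classical
  letI := K3.algKC
  intro c hc U hU
  have key : ∀ σ : ℂ ≃ₐ[Kbar] ℂ, ∃ (c' : G0 N → ZMod p) (V : ℍ → ℂ) (s : LaurentSeries ℂ),
      s ∈ H882.FC N ∧ s ≠ 0 ∧ IsTwisted N p c' V ∧
      qexpFun 1 (fun τ => V τ ^ p)
        = coeffMap (σ : ℂ →+* ℂ) (qexpFun 1 (fun τ => U τ ^ p)) * s ^ p :=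
    fun σ => fin_exists_isTwisted_conj h1 h2 hc hU σ.toRingEquiv
  choose cσ Vσ sσ hsmem hs0 hV hq using key
  have hfinC : (Set.range cσ).Finite := by
    refine (S30.H109.finite_hom_set (N := N) (m := p)).subset ?_
    rintro _ ⟨σ, rfl⟩
    exact fun γ γ' => S30.Fin.fin_isTwisted_map_mul (hV σ) γ γ'
  haveI : Finite (Set.range cσ) := hfinC.to_subtype
  let rep : Set.range cσ → (ℂ ≃ₐ[Kbar] ℂ) := fun c => c.2.choose
  have hrep : ∀ c : Set.range cσ, cσ (rep c) = c.1 := fun c => c.2.choose_spec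
  refine ⟨Set.range (fun c : Set.range cσ =>
    coeffMap ((rep c : ℂ ≃ₐ[Kbar] ℂ) : ℂ →+* ℂ) (qexpFun 1 (fun τ => U τ ^ p))),
    Set.finite_range _, fun σ => ?_⟩
  set c0 : Set.range cσ := ⟨cσ σ, σ, rfl⟩ with hc0
  refine ⟨_, ⟨c0, rfl⟩, ?_⟩
  have hV0 : IsTwisted N p (cσ σ) (Vσ (rep c0)) := by
    have := hV (rep c0)
    rw [hrep c0] at this
    exact this
  obtain ⟨g, hg, hg0, hgeq⟩ := H942.exists_pow_mul_eq_of_realised N p (hV σ) hV0
    (hsmem σ) (hs0 σ) (hsmem (rep c0)) (hs0 (rep c0)) (hq σ) (hq (rep c0))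
  exact ⟨g, hg, hg0, by rw [hgeq]; ring⟩

end Fermat.Agent.S29.H441
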